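import Fermat.Agent.RT.Mazur.CurveCaseA
import Fermat.Agent.RT.Core.Forms

/-!
# Level lowering at `q ≠ p`, non-degenerate case, every odd `p`

`caseA`: for an odd `p` and a semistable model with irreducible mod `p` representation, unramified
at `q ≠ p` and residually modular of a level with `q` exactly dividing it, the prime `q` leaves
the level unless `q ≡ 1` modulo `p` and the Frobenius elements at `q` are scalar. It is Mazur's
principle of `RT/Mazur/CurveCaseA`; `caseA_rhoBar`, the same over an extension field of `ZMod p`,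
is used in `RT/LowerB/Main`.

## References

* K. Ribet, *On modular representations of Gal(Q̄/Q) arising from modular forms*, Invent. Math.
  (1990), for the principle of Mazur.

The principle is proved in `RT/Mazur` with divisor classes and Kummer functions on the two
reductions of the modular curve, in place of Néron models and component groups.
-/

set_option autoImplicit false

noncomputable section

open WeierstrassCurve
open scoped TensorProduct

namespace Fermat.Agent.RT.LowerA

open Fermat.Agent.Arith (GQ QBar)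

variable {W : WeierstrassCurve ℤ} (hΔ : W.Δ ≠ 0) {p : ℕ} [Fact p.Prime]

include hΔ in
/-- **Case A of level lowering.** -/
theorem caseA (hp2 : p ≠ 2) (hW : W.IsSemistableModel) (hirr : W.ModRepIsIrreducible p) {M q : ℕ}
    (hM : M ≠ 0) (hq : q.Prime) (hqp : q ≠ p) (hqM : q ∣ M) (hq2 : ¬ q ^ 2 ∣ M)
    (hunr : (EC.Rep.residualRep W p hΔ).IsUnramifiedAt q)
    (hns : (∃ (A : ValuationSubring QBar) (σ : GQ), A.LiesOverPrime q ∧ A.IsFrobeniusAt σ q ∧
      ∀ c : ZMod p, (EC.Rep.residualRep W p hΔ).ρ σ ≠ c • 1) ∨ (q : ZMod p) ≠ 1)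
    (hmod : W.IsResiduallyModularOfLevel p M) : W.IsResiduallyModularOfLevel p (M / q) := by
  obtain ⟨N, rfl⟩ := hqM
  rw [Nat.mul_div_cancel_left N hq.pos]
  have : NeZero N := ⟨fun h => hM (by rw [h, mul_zero])⟩
  have hqN : ¬ q ∣ N := fun h => hq2 (by rw [pow_two]; exact mul_dvd_mul_left q h)
  rcases hns with ⟨A, σ, hA, hσ, hns⟩ | hns
  · refine Mazur.lower_nonscalar_odd hp2 hW hq hqp hqN hirr hmod hunr hA hσ (Or.inl fun c hc => ?_)
    refine hns c ((LinearMap.toMatrixAlgEquiv (Mazur.curveBasis W p hΔ)).injective ?_)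
    rw [map_smul, map_one]
    exact hc
  · obtain ⟨A, hA⟩ := Arith.exists_liesOverPrime hq
    obtain ⟨σ, hσ⟩ := Arith.exists_isFrobeniusAt hA hq
    exact Mazur.lower_nonscalar_odd hp2 hW hq hqp hqN hirr hmod hunr hA hσ (Or.inr hns)

variable (k : Type) [Field k] [Algebra (ZMod p) k]

include hΔ in
/-- **Case A of level lowering**, with hypotheses on the representation over `k`. -/
theorem caseA_rhoBar (hp2 : p ≠ 2) (hW : W.IsSemistableModel) (hirr : W.ModRepIsIrreducible p)
    {M q : ℕ} (hM : M ≠ 0) (hq : q.Prime) (hqp : q ≠ p) (hqM : q ∣ M) (hq2 : ¬ q ^ 2 ∣ M)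
    (hunr : (Core.rhoBar W p hΔ k).IsUnramifiedAt q)
    (hns : (∃ (A : ValuationSubring QBar) (σ : GQ), A.LiesOverPrime q ∧ A.IsFrobeniusAt σ q ∧
      ∀ c : k, (Core.rhoBar W p hΔ k).ρ σ ≠ c • 1) ∨ (q : k) ≠ 1)
    (hmod : W.IsResiduallyModularOfLevel p M) : W.IsResiduallyModularOfLevel p (M / q) := by
  refine caseA hΔ hp2 hW hirr hM hq hqp hqM hq2 (fun A hA τ hτ => ?_) ?_ hmod
  · refine LinearMap.ext fun x => ?_
    have h1 := LinearMap.congr_fun (hunr A hA τ hτ) ((1 : k) ⊗ₜ[ZMod p] x)
    exact Module.FaithfullyFlat.tensorProduct_mk_injective (A := ZMod p) (B := k) _ h1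
  · rcases hns with ⟨A, σ, hA, hσ, hns⟩ | hns
    · refine Or.inl ⟨A, σ, hA, hσ, fun c hc => hns (algebraMap (ZMod p) k c) ?_⟩
      show ((EC.Rep.residualRep W p hΔ).ρ σ).baseChange k =
        algebraMap (ZMod p) k c • (1 : Module.End k (k ⊗[ZMod p] (EC.Rep.residualRep W p hΔ).V))
      rw [hc, LinearMap.baseChange_smul, LinearMap.baseChange_one, algebraMap_smul]
    · exact Or.inr fun h => hns (by rw [← map_natCast (algebraMap (ZMod p) k), h, map_one])

end Fermat.Agent.RT.LowerA
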